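import Fermat.Agent.S22.H62.Growth
import Fermat.Agent.S22.H72.Bol
import Fermat.Prelude.Thm_Subgroup_IsArithmetic_exists_nat_mem_strictPeriods_conj

/-!
# Separation step for the Eichler-cocycle lattice (helper62, S22)

If `F` is holomorphic on `ℍ`, invariant of weight `-m` under an arithmetic group `Γ`, and
`D^[m+1] F` is a cusp form `f` of weight `m + 2` for `Γ`, then `f = 0`.
Bol's identity is imported from `Fermat.Agent.S22.H72.Bol` (helper72).
-/

set_option autoImplicit false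

open Complex Filter Function Set Topology Asymptotics Derivative ModularForm
open UpperHalfPlane hiding I
open scoped Real Manifold MatrixGroups

namespace Fermat.Agent.S22.H62

theorem iterate_D_zero (n : ℕ) : D^[n] (0 : ℍ → ℂ) = 0 :=
  Function.iterate_fixed
    (show D (fun _ : ℍ ↦ (0 : ℂ)) = 0 from normalizedDerivOfComplex_const 0) n

/-- Boundedness at `i∞` of all `SL(2, ℤ)`-translates, from Bol's identity. -/
theorem isBoundedAtImInfty_slash_of_bol {Γ : Subgroup (GL (Fin 2) ℝ)} [Γ.IsArithmetic] (m : ℕ)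
    (f : CuspForm Γ ((m : ℤ) + 2)) (F : ℍ → ℂ) (hF : MDiff F)
    (hbol : ∀ σ : SL(2, ℤ), D^[m + 1] (F ∣[-(m : ℤ)] σ) = (D^[m + 1] F) ∣[(m : ℤ) + 2] σ)
    (hD : D^[m + 1] F = ⇑f)
    (hinv : ∀ γ ∈ Γ, F ∣[-(m : ℤ)] γ = F) (σ : SL(2, ℤ)) :
    IsBoundedAtImInfty (F ∣[-(m : ℤ)] σ) := by
  let F' : SlashInvariantForm Γ (-(m : ℤ)) := { toFun := F, slash_action_eq' := hinv }
  obtain ⟨M, hM0, hM⟩ := Subgroup.IsArithmetic.exists_nat_mem_strictPeriods_conj Γ
  have hMpos : (0 : ℝ) < M := by exact_mod_cast hM0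
  have hG : MDiff (F ∣[-(m : ℤ)] σ) := by rw [SL_slash]; exact hF.slash _ _
  have hper : Periodic ((F ∣[-(m : ℤ)] σ) ∘ ofComplex) (M : ℝ) := by
    have h1 := hM σ⁻¹
    rw [map_inv] at h1
    have := SlashInvariantFormClass.periodic_comp_ofComplex
      (SlashInvariantForm.translate F' (Matrix.SpecialLinearGroup.mapGL ℝ σ)) h1
    exact this
  refine isBoundedAtImInfty_of_iterate_D hMpos (m + 1) hG hper ?_
  rw [hbol σ, hD]
  exact (CuspFormClass.zero_at_infty_slash f σ).isBoundedAtImInfty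

theorem separation_of_bol {Γ : Subgroup (GL (Fin 2) ℝ)} [Γ.IsArithmetic] (m : ℕ)
    (f : CuspForm Γ ((m : ℤ) + 2)) (F : ℍ → ℂ) (hF : MDiff F)
    (hbol : ∀ σ : SL(2, ℤ), D^[m + 1] (F ∣[-(m : ℤ)] σ) = (D^[m + 1] F) ∣[(m : ℤ) + 2] σ)
    (hD : D^[m + 1] F = ⇑f)
    (hinv : ∀ γ ∈ Γ, F ∣[-(m : ℤ)] γ = F) : f = 0 := by
  have hbdd := isBoundedAtImInfty_slash_of_bol m f F hF hbol hD hinv
  let Fm : ModularForm Γ (-(m : ℤ)) :=
    { toFun := F
      slash_action_eq' := hinv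
      holo' := hF
      bdd_at_cusps' := fun {c} hc ↦
        (OnePoint.isBoundedAt_iff_forall_SL2Z
          ((Subgroup.IsArithmetic.isCusp_iff_isCusp_SL2Z Γ).mp hc)).mpr fun γ _ ↦ hbdd γ }
  have hFm : (Fm : ℍ → ℂ) = F := rfl
  have hf0 : (f : ℍ → ℂ) = 0 := by
    rcases Nat.eq_zero_or_pos m with rfl | hm
    · obtain ⟨c, hc⟩ := ModularForm.eq_const_of_weight_zero
        (ModularForm.mcast (by simp) Fm : ModularForm Γ 0)
      have hFc : F = fun _ ↦ c := by
        rw [← hFm]; funext z; exact congrFun hc z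
      rw [← hD, hFc]
      simp
    · have hz : Fm = 0 := ModularForm.isZero_of_neg_weight (by simpa using hm) Fm
      have hF0 : F = 0 := by rw [← hFm, hz]; rfl
      rw [← hD, hF0, iterate_D_zero]
  exact DFunLike.coe_injective hf0

/-- **Separation.** A holomorphic `F` on `ℍ`, invariant of weight `-m` under an arithmetic group
`Γ`, whose `(m+1)`-st normalised derivative is a cusp form `f` of weight `m + 2` for `Γ`, forces
`f = 0`. (No periodicity or growth assumption on `F`.) -/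
theorem separation {Γ : Subgroup (GL (Fin 2) ℝ)} [Γ.IsArithmetic] (m : ℕ)
    (f : CuspForm Γ ((m : ℤ) + 2)) (F : ℍ → ℂ) (hF : MDiff F)
    (hD : D^[m + 1] F = ⇑f)
    (hinv : ∀ γ ∈ Γ, F ∣[-(m : ℤ)] γ = F) : f = 0 :=
  separation_of_bol m f F hF (fun σ ↦ H72.bol_SL m F hF σ) hD hinv

/-- **Separation for `Γ₀(N)`**, with invariance stated for elements of `SL(2, ℤ)`. -/
theorem separation_core (N : ℕ) [NeZero N] (m : ℕ)
    (f : CuspForm (CongruenceSubgroup.Gamma0 N) ((m : ℤ) + 2)) (F : ℍ → ℂ) (hF : MDiff F)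
    (hD : D^[m + 1] F = ⇑f)
    (hinv : ∀ γ : SL(2, ℤ), γ ∈ CongruenceSubgroup.Gamma0 N → F ∣[-(m : ℤ)] γ = F) : f = 0 := by
  refine separation m f F hF hD ?_
  rintro _ ⟨γ, hγ, rfl⟩
  exact hinv γ hγ

/-- Variant with an arbitrary integer weight `k = m + 2`. -/
theorem separation_core' (N : ℕ) [NeZero N] (m : ℕ) (k : ℤ) (hk : k = (m : ℤ) + 2)
    (f : CuspForm (CongruenceSubgroup.Gamma0 N) k) (F : ℍ → ℂ) (hF : MDiff F)
    (hD : D^[m + 1] F = ⇑f)
    (hinv : ∀ γ : SL(2, ℤ), γ ∈ CongruenceSubgroup.Gamma0 N → F ∣[-(m : ℤ)] γ = F) : f = 0 := by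
  subst hk
  exact separation_core N m f F hF hD hinv

end Fermat.Agent.S22.H62
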