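import Mathlib

/-!
# Periodic holomorphic functions whose derivative is bounded at `i∞` are bounded at `i∞`

(helper62, S22 separation package.)  Everything here is Mathlib-only.
-/

set_option autoImplicit false

open Complex Filter Function Set Topology Asymptotics Derivative
open UpperHalfPlane hiding I
open scoped Real Manifold

namespace Fermat.Agent.S22.H62

local notation "I∞" => comap Complex.im atTop
local notation "𝕢" => Periodic.qParam

/-- A periodic function, holomorphic near `i∞`, of at most linear growth in `Im z`,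
is bounded at `i∞` (removable singularity for the cusp function). -/
theorem boundedAtFilter_of_linear_growth {h : ℝ} {f : ℂ → ℂ} (hh : 0 < h)
    (hf : Periodic f h) (h_hol : ∀ᶠ z in I∞, DifferentiableAt ℂ f z)
    (h_lin : ∃ C A : ℝ, ∀ z : ℂ, A ≤ z.im → ‖f z‖ ≤ C * z.im) :
    BoundedAtFilter I∞ f := by
  obtain ⟨C, A, hCA⟩ := h_lin
  set F := Periodic.cuspFunction h f with hFdef
  -- `f z * q(z) → 0` at `i∞`
  have hlim : Tendsto (fun z ↦ f z * 𝕢 h z) I∞ (𝓝 0) := by
    have hreal : Tendsto (fun y : ℝ ↦ C * (y * Real.exp (-(2 * π / h) * y))) atTop (𝓝 0) := by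
      have h1 := Real.tendsto_pow_mul_exp_neg_atTop_nhds_zero 1
      have hc : 0 < 2 * π / h := by positivity
      have h2 : Tendsto (fun y : ℝ ↦ (2 * π / h) * y) atTop atTop :=
        tendsto_id.const_mul_atTop hc
      have h3 := (h1.comp h2).const_mul (C * (2 * π / h)⁻¹)
      simp only [mul_zero] at h3
      refine h3.congr fun y ↦ ?_
      simp only [comp_apply, pow_one, neg_mul]
      field_simp
    have hreal' : Tendsto (fun z : ℂ ↦ C * (z.im * Real.exp (-(2 * π / h) * z.im))) I∞ (𝓝 0) :=
      hreal.comp tendsto_comap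
    refine squeeze_zero_norm' ?_ hreal'
    have hev : ∀ᶠ z : ℂ in I∞, A ≤ z.im := tendsto_comap.eventually (eventually_ge_atTop A)
    filter_upwards [hev] with z hz
    rw [norm_mul, Periodic.norm_qParam]
    have hexp : Real.exp (-2 * π * z.im / h) = Real.exp (-(2 * π / h) * z.im) := by
      congr 1; field_simp
    rw [hexp, ← mul_assoc]
    exact mul_le_mul_of_nonneg_right (hCA z hz) (Real.exp_pos _).le
  -- transfer to the cusp function
  have hlim2 : Tendsto (fun q ↦ F q * q) (𝓝[≠] 0) (𝓝 0) := by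
    refine (hlim.comp (Periodic.invQParam_tendsto hh)).congr' ?_
    refine eventually_nhdsWithin_of_forall fun q hq ↦ ?_
    simp only [comp_apply, hFdef, Periodic.cuspFunction_eq_of_nonzero _ _ hq,
      Periodic.qParam_right_inv hh.ne' hq]
  have ho : (fun q ↦ F q - F 0) =o[𝓝[≠] 0] fun q ↦ (q - 0)⁻¹ := by
    rw [isLittleO_iff_tendsto']
    · have h0 : Tendsto (fun q : ℂ ↦ F 0 * q) (𝓝[≠] 0) (𝓝 0) := by
        have : Tendsto (fun q : ℂ ↦ F 0 * q) (𝓝 0) (𝓝 (F 0 * 0)) :=
          (continuous_const.mul continuous_id).tendsto 0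
        simpa using this.mono_left nhdsWithin_le_nhds
      have := hlim2.sub h0
      simp only [sub_zero] at this
      refine this.congr fun q ↦ ?_
      simp only [sub_zero, div_eq_mul_inv, inv_inv]
      ring
    · refine eventually_nhdsWithin_of_forall fun q hq hq' ↦ ?_
      simp only [sub_zero, inv_eq_zero] at hq'
      exact absurd hq' hq
  have hdiff := Periodic.eventually_differentiableAt_cuspFunction_nhds_ne_zero hh hf h_hol
  obtain ⟨S, hS1, hS2, hS3⟩ := eventually_nhds_iff.mp (eventually_nhdsWithin_iff.mp hdiff)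
  have h_diff : DifferentiableOn ℂ F (S \ {0}) :=
    fun x hx ↦ (hS1 x hx.1 hx.2).differentiableWithinAt
  have key := Complex.differentiableOn_update_limUnder_of_isLittleO (IsOpen.mem_nhds hS2 hS3)
    h_diff ho
  rw [hFdef, ← Periodic.cuspFunction_zero_eq_limUnder_nhds_ne, update_eq_self] at key
  have hcts : ContinuousAt (Periodic.cuspFunction h f) 0 :=
    (key.differentiableAt (IsOpen.mem_nhds hS2 hS3)).continuousAt
  have hO : (Periodic.cuspFunction h f) =O[𝓝 0] (fun _ ↦ (1 : ℝ)) := hcts.tendsto.isBigO_one ℝ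
  have hO2 := hO.comp_tendsto ((Periodic.qParam_tendsto hh).mono_right nhdsWithin_le_nhds)
  have hfe : (Periodic.cuspFunction h f) ∘ 𝕢 h = f := funext fun z ↦
    Periodic.eq_cuspFunction hh.ne' hf z
  rw [hfe] at hO2
  exact hO2

/-- A periodic holomorphic function on the upper half-plane with bounded derivative near `i∞`
grows at most linearly in `Im z`. -/
theorem linear_growth_of_deriv_bdd {h : ℝ} {k : ℂ → ℂ} (hh : 0 < h) (hk : Periodic k h)
    (hdiff : ∀ z : ℂ, 0 < z.im → DifferentiableAt ℂ k z)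
    (hbd : ∃ C A : ℝ, ∀ z : ℂ, A ≤ z.im → ‖deriv k z‖ ≤ C) :
    ∃ C A : ℝ, ∀ z : ℂ, A ≤ z.im → ‖k z‖ ≤ C * z.im := by
  obtain ⟨C₀, A₀, hCA⟩ := hbd
  set A : ℝ := max A₀ 1 with hA
  have hA1 : (1 : ℝ) ≤ A := le_max_right _ _
  have hA0 : A₀ ≤ A := le_max_left _ _
  set C : ℝ := max C₀ 0 with hC
  have hC0 : 0 ≤ C := le_max_right _ _
  -- bound on the horizontal segment at height `A`
  have hcont : ContinuousOn (fun x : ℝ ↦ k ((x : ℂ) + A * I)) (Icc 0 h) := by
    intro x _
    have hd : DifferentiableAt ℂ k ((x : ℂ) + A * I) := hdiff _ (by simp; linarith)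
    have hc : ContinuousAt (fun x : ℝ ↦ (x : ℂ) + A * I) x := by fun_prop
    exact (hd.continuousAt.comp_of_eq hc rfl).continuousWithinAt
  obtain ⟨B, hB⟩ := isCompact_Icc.exists_bound_of_continuousOn hcont
  have hconv : Convex ℝ {z : ℂ | A ≤ z.im} := convex_halfSpace_im_ge A
  refine ⟨max B 0 + C, A, fun z hz ↦ ?_⟩
  -- reduce the real part modulo the period
  set n : ℤ := ⌊z.re / h⌋ with hn
  set z' : ℂ := z - n * h with hz'
  have hkz : k z' = k z := hk.sub_int_mul_eq n
  have hre : z'.re = z.re - n * h := by simp [hz']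
  have him : z'.im = z.im := by simp [hz']
  have hre0 : 0 ≤ z'.re := by rw [hre]; exact Int.sub_floor_div_mul_nonneg _ hh
  have hre1 : z'.re ≤ h := by rw [hre]; exact (Int.sub_floor_div_mul_lt _ hh).le
  set w : ℂ := (z'.re : ℂ) + A * I with hw
  have hwim : w.im = A := by simp [hw]
  have hws : w ∈ {z : ℂ | A ≤ z.im} := by simp [hwim]
  have hz's : z' ∈ {z : ℂ | A ≤ z.im} := by simpa [him] using hz
  have hmv := Convex.norm_image_sub_le_of_norm_deriv_le (f := k) (C := C)
    (fun x hx ↦ hdiff x (lt_of_lt_of_le (by linarith) hx))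
    (fun x hx ↦ (hCA x (hA0.trans hx)).trans (le_max_left _ _)) hconv hws hz's
  have hdist : ‖z' - w‖ = z.im - A := by
    have : z' - w = ((z.im - A : ℝ) : ℂ) * I := by
      apply Complex.ext <;> simp [hw, him]
    rw [this, norm_mul, Complex.norm_I, mul_one, Complex.norm_real, Real.norm_eq_abs,
      abs_of_nonneg (by linarith)]
  have hBw : ‖k w‖ ≤ B := by
    have := hB z'.re ⟨hre0, hre1⟩
    simpa [hw] using this
  have hzim : 1 ≤ z.im := hA1.trans hz
  calc ‖k z‖ = ‖k z'‖ := by rw [hkz]
    _ = ‖k w + (k z' - k w)‖ := by congr 1; ring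
    _ ≤ ‖k w‖ + ‖k z' - k w‖ := norm_add_le _ _
    _ ≤ B + C * (z.im - A) := by rw [← hdist]; exact add_le_add hBw hmv
    _ ≤ max B 0 * z.im + C * z.im := by
        have h1 : B ≤ max B 0 * z.im := by
          calc B ≤ max B 0 := le_max_left _ _
            _ = max B 0 * 1 := (mul_one _).symm
            _ ≤ max B 0 * z.im := mul_le_mul_of_nonneg_left hzim (le_max_right _ _)
        have h2 : C * (z.im - A) ≤ C * z.im :=
          mul_le_mul_of_nonneg_left (by linarith) hC0
        linarith
    _ = (max B 0 + C) * z.im := by ring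


/-- The normalised derivative of a periodic function is periodic. -/
theorem periodic_D {h : ℝ} {K : ℍ → ℂ} (hper : Periodic (K ∘ ofComplex) h) :
    Periodic (D K ∘ ofComplex) h := by
  intro w
  by_cases! hw : 0 < im w
  · have hw' : 0 < im (w + h) := by simp [hw]
    simp only [comp_apply, ofComplex_apply_of_im_pos hw', ofComplex_apply_of_im_pos hw,
      normalizedDerivOfComplex]
    congr 1
    have : (K ∘ ofComplex) = fun x ↦ (K ∘ ofComplex) (x + h) := funext fun x ↦ (hper x).symm
    conv_rhs => rw [this]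
    rw [deriv_comp_add_const]
  · have : im (w + h) ≤ 0 := by simpa using hw
    simp [ofComplex_apply_of_im_nonpos this, ofComplex_apply_of_im_nonpos hw]

/-- One step: a holomorphic periodic function on `ℍ` whose normalised derivative is bounded at
`i∞` is itself bounded at `i∞`. -/
theorem isBoundedAtImInfty_of_D {h : ℝ} (hh : 0 < h) {K : ℍ → ℂ} (hK : MDiff K)
    (hper : Periodic (K ∘ ofComplex) h) (hbd : IsBoundedAtImInfty (D K)) :
    IsBoundedAtImInfty K := by
  have hdiff : ∀ z : ℂ, 0 < z.im → DifferentiableAt ℂ (K ∘ ofComplex) z := fun z hz ↦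
    UpperHalfPlane.mdifferentiableAt_iff.mp (hK ⟨z, hz⟩)
  obtain ⟨M, A, hMA⟩ := isBoundedAtImInfty_iff.mp hbd
  have hlin := linear_growth_of_deriv_bdd hh hper hdiff
    ⟨2 * π * M, max A 1, fun z hz ↦ by
      have hz0 : 0 < z.im := lt_of_lt_of_le one_pos ((le_max_right _ _).trans hz)
      have := hMA ⟨z, hz0⟩ ((le_max_left _ _).trans hz)
      have h2 : ‖(2 * π * I : ℂ)‖ = 2 * π := by
        simp [abs_of_pos Real.pi_pos]
      rw [normalizedDerivOfComplex, norm_mul, norm_inv, h2] at this
      have hpos : (0 : ℝ) < 2 * π := by positivity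
      rw [inv_mul_le_iff₀ hpos] at this
      exact this⟩
  have hb := boundedAtFilter_of_linear_growth hh hper
    (eventually_of_mem (preimage_mem_comap (Ioi_mem_atTop 0)) fun z hz ↦ hdiff z hz) hlin
  have := hb.comp_tendsto tendsto_coe_atImInfty
  have he : (K ∘ ofComplex) ∘ ((↑) : ℍ → ℂ) = K := by
    funext z; simp
  rw [he] at this
  exact this

/-- A holomorphic periodic function on `ℍ` one of whose iterated normalised derivatives is
bounded at `i∞` is itself bounded at `i∞`. -/
theorem isBoundedAtImInfty_of_iterate_D {h : ℝ} (hh : 0 < h) (n : ℕ) :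
    ∀ {K : ℍ → ℂ}, MDiff K → Periodic (K ∘ ofComplex) h → IsBoundedAtImInfty (D^[n] K) →
      IsBoundedAtImInfty K := by
  induction n with
  | zero => intro K _ _ hbd; simpa using hbd
  | succ n ih =>
    intro K hK hper hbd
    rw [Function.iterate_succ_apply] at hbd
    exact isBoundedAtImInfty_of_D hh hK hper
      (ih (normalizedDerivOfComplex_mdifferentiable hK) (periodic_D hper) hbd)

end Fermat.Agent.S22.H62
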