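import Fermat.Prelude.Sol.S_ModularForm_heckeT_slash_eq_self_of_mem_Gamma0

/-!
# Function-level Hecke/cocycle identities (helper62, S22)

For an arbitrary function `E : ℍ → ℂ`, a weight `κ` and `γ ∈ Γ₀(N)`:
`(T_p E) ∣ γ - T_p E = ∑ₓ (E ∣ γ'ₓ - E) ∣ δ_{π x}` with `γ'ₓ ∈ Γ₀(N)`, where `δ` runs over the
standard coset representatives; similarly for `U_q`.
-/

set_option autoImplicit false

open Matrix.SpecialLinearGroup UpperHalfPlane ModularForm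
open P2MW.S_ModularForm_heckeT_slash_eq_self_of_mem_Gamma0.ModularForm.HeckeSlashInvariance
open scoped MatrixGroups ModularForm

namespace Fermat.Agent.S22.H62

theorem sub_slash' {G : Type*} [Monoid G] [SlashAction ℤ G (ℍ → ℂ)] (κ : ℤ) (g : G)
    (a b : ℍ → ℂ) : (a - b) ∣[κ] g = a ∣[κ] g - b ∣[κ] g := by
  rw [sub_eq_add_neg, SlashAction.add_slash, SlashAction.neg_slash, ← sub_eq_add_neg]

/-- `T_p`: the coboundary of `T_p E` at `γ ∈ Γ₀(N)` is a sum of translated coboundaries of `E`. -/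
theorem heckeT_slash_sub {N p : ℕ} [Fact p.Prime] (hpN : ¬ p ∣ N)
    (γ : SL(2, ℤ)) (hγ : γ ∈ CongruenceSubgroup.Gamma0 N) :
    ∃ γ' : OnePoint (ZMod p) → SL(2, ℤ), (∀ x, γ' x ∈ CongruenceSubgroup.Gamma0 N) ∧
      ∀ (κ : ℤ) (E : ℍ → ℂ), heckeT κ p E ∣[κ] γ - heckeT κ p E =
        ∑ x : OnePoint (ZMod p), (E ∣[κ] γ' x - E) ∣[κ] heckeRep p (redMatrix p γ • x) := by
  have hcN : (N : ℤ) ∣ γ 1 0 :=
    (ZMod.intCast_zmod_eq_zero_iff_dvd _ _).mp (CongruenceSubgroup.Gamma0_mem.mp hγ)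
  choose γ' hγ'N hmul using fun x ↦ heckeRep_mul hpN γ hcN x
  refine ⟨γ', fun x ↦ CongruenceSubgroup.Gamma0_mem.mpr
    ((ZMod.intCast_zmod_eq_zero_iff_dvd _ _).mpr (hγ'N x)), fun κ E ↦ ?_⟩
  have h1 : heckeT κ p E ∣[κ] γ =
      ∑ x : OnePoint (ZMod p), (E ∣[κ] γ' x) ∣[κ] heckeRep p (redMatrix p γ • x) := by
    rw [heckeT_eq_sum_onePoint κ E]
    change (∑ x : OnePoint (ZMod p), E ∣[κ] heckeRep p x) ∣[κ] mapGL ℝ γ = _
    rw [SlashAction.sum_slash]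
    refine Finset.sum_congr rfl fun x _ ↦ ?_
    rw [← SlashAction.slash_mul, hmul x, SlashAction.slash_mul]
    rfl
  have h2 : heckeT κ p E =
      ∑ x : OnePoint (ZMod p), E ∣[κ] heckeRep p (redMatrix p γ • x) := by
    rw [heckeT_eq_sum_onePoint κ E]
    exact (Equiv.sum_comp (MulAction.toPerm (redMatrix p γ))
      (fun x ↦ E ∣[κ] heckeRep p x)).symm
  rw [h1]
  conv_lhs => rw [h2]
  rw [← Finset.sum_sub_distrib]
  exact Finset.sum_congr rfl fun x _ ↦ (sub_slash' κ _ _ _).symm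

/-- `U_q`: the coboundary of `U_q E` at `γ ∈ Γ₀(N)` (`q ∣ N`) is a sum of translated coboundaries
of `E`. -/
theorem heckeU_slash_sub {N q : ℕ} [NeZero q] (hqN : q ∣ N)
    (γ : SL(2, ℤ)) (hγ : γ ∈ CongruenceSubgroup.Gamma0 N) :
    ∃ (γ' : ZMod q → SL(2, ℤ)) (π : Equiv.Perm (ZMod q)),
      (∀ x, γ' x ∈ CongruenceSubgroup.Gamma0 N) ∧
      ∀ (κ : ℤ) (E : ℍ → ℂ), heckeU κ q E ∣[κ] γ - heckeU κ q E =
        ∑ x : ZMod q, (E ∣[κ] γ' x - E) ∣[κ] heckeMatrix q (π x).val := by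
  have hcN : (N : ℤ) ∣ γ 1 0 :=
    (ZMod.intCast_zmod_eq_zero_iff_dvd _ _).mp (CongruenceSubgroup.Gamma0_mem.mp hγ)
  have hc : (q : ℤ) ∣ γ 1 0 := (Int.natCast_dvd_natCast.mpr hqN).trans hcN
  have hc0 : ((γ 1 0 : ℤ) : ZMod q) = 0 := (ZMod.intCast_zmod_eq_zero_iff_dvd _ _).mpr hc
  choose γ' hγ' hmul using fun x ↦ heckeMatrix_mul_of_dvd γ hc x
  refine ⟨γ', affinePerm γ hc0, fun x ↦ ?_, fun κ E ↦ ?_⟩
  · rw [CongruenceSubgroup.Gamma0_mem, hγ' x]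
    push_cast
    rw [CongruenceSubgroup.Gamma0_mem.mp hγ, mul_zero]
  have h1 : heckeU κ q E ∣[κ] γ =
      ∑ x : ZMod q, (E ∣[κ] γ' x) ∣[κ] heckeMatrix q (affinePerm γ hc0 x).val := by
    rw [heckeU_eq_sum_zmod κ E]
    change (∑ x : ZMod q, E ∣[κ] heckeMatrix q x.val) ∣[κ] mapGL ℝ γ = _
    rw [SlashAction.sum_slash]
    refine Finset.sum_congr rfl fun x _ ↦ ?_
    rw [← SlashAction.slash_mul, hmul x, SlashAction.slash_mul]
    rfl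
  have h2 : heckeU κ q E = ∑ x : ZMod q, E ∣[κ] heckeMatrix q (affinePerm γ hc0 x).val := by
    rw [heckeU_eq_sum_zmod κ E]
    exact (Equiv.sum_comp (affinePerm γ hc0) (fun x ↦ E ∣[κ] heckeMatrix q x.val)).symm
  rw [h1]
  conv_lhs => rw [h2]
  rw [← Finset.sum_sub_distrib]
  exact Finset.sum_congr rfl fun x _ ↦ (sub_slash' κ _ _ _).symm

end Fermat.Agent.S22.H62
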