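import Fermat.Agent.S22.H62.HeckeFun
import Fermat.Agent.S22.H50.Eint
import Fermat.Prelude.Def_CuspForm_HeckeAlgebra
import Fermat.Prelude.Thm_CongruenceSubgroup_one_mem_strictPeriods_Gamma0

/-!
# Hecke stability of the period-polynomial lattice (helper62, S22, step (d) of the cocycle route)

Written against an abstract family `per γ : S_{n+2}(Γ₀(N)) →ₗ[ℂ] ℂ[X]` of period polynomials
with `polyFun (per γ f) = E_f ∣[-n] γ - E_f` (`E_f = eint 1 (n+1) f` the Eichler integral of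
helper50) and `natDegree (per γ f) ≤ n`.
-/

set_option autoImplicit false

open Matrix.SpecialLinearGroup UpperHalfPlane ModularForm Polynomial
open P2MW.S_ModularForm_heckeT_slash_eq_self_of_mem_Gamma0.ModularForm.HeckeSlashInvariance
open Fermat.Agent.S22.H50
open scoped MatrixGroups ModularForm Manifold

namespace Fermat.Agent.S22.H62

/-! ### Polynomial side: the action of upper-triangular integral matrices -/

/-- The integer polynomial `(aX + b)^i d^(n-i)`. -/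
noncomputable def wInt (n : ℕ) (a b d : ℤ) (i : ℕ) : ℤ[X] :=
  (C a * X + C b) ^ i * C (d ^ (n - i))

/-- `P ↦ ∑_{i ≤ n} P_i (aX + b)^i d^(n-i)`. -/
noncomputable def shiftPoly (n : ℕ) (a b d : ℤ) (P : ℂ[X]) : ℂ[X] :=
  ∑ i ∈ Finset.range (n + 1), P.coeff i • (wInt n a b d i).map (Int.castRingHom ℂ)

theorem coeff_shiftPoly (n : ℕ) (a b d : ℤ) (P : ℂ[X]) (j : ℕ) :
    (shiftPoly n a b d P).coeff j =
      ∑ i ∈ Finset.range (n + 1), (wInt n a b d i).coeff j • P.coeff i := by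
  simp only [shiftPoly, finsetSum_coeff, coeff_smul, coeff_map, smul_eq_mul, eq_intCast,
    zsmul_eq_mul]
  exact Finset.sum_congr rfl fun i _ ↦ mul_comm _ _

theorem eval_shiftPoly (n : ℕ) (a b d : ℤ) (P : ℂ[X]) (z : ℂ) :
    (shiftPoly n a b d P).eval z =
      ∑ i ∈ Finset.range (n + 1), P.coeff i * (((a : ℂ) * z + b) ^ i * (d : ℂ) ^ (n - i)) := by
  simp only [shiftPoly, eval_finsetSum, eval_smul, smul_eq_mul, wInt, eval_map]
  refine Finset.sum_congr rfl fun i _ ↦ ?_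
  congr 1
  rw [eval₂_mul, eval₂_pow, eval₂_add, eval₂_mul, eval₂_C, eval₂_X, eval₂_C, eval₂_C]
  simp

theorem polyFun_sum' {ι : Type*} (s : Finset ι) (P : ι → ℂ[X]) :
    polyFun (∑ i ∈ s, P i) = ∑ i ∈ s, polyFun (P i) := by
  funext z
  simp [eval_finsetSum]

theorem smul_polyFun_slash_heckeMatrix (n : ℕ) {p : ℕ} (hp : p ≠ 0) (j : ℕ) {P : ℂ[X]}
    (hP : P.natDegree ≤ n) :
    (p : ℂ) ^ (n + 1) • (polyFun P ∣[-(n : ℤ)] heckeMatrix p j) =
      polyFun (shiftPoly n 1 j p P) := by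
  have hp' : (p : ℂ) ≠ 0 := by exact_mod_cast hp
  funext τ
  simp only [Pi.smul_apply, smul_eq_mul, slash_heckeMatrix_apply _ hp, polyFun_apply,
    coe_heckeMatrix_smul hp, eval_shiftPoly]
  rw [eval_eq_sum_range' (Nat.lt_succ_of_le hP), Finset.mul_sum, Finset.mul_sum]
  refine Finset.sum_congr rfl fun i hi ↦ ?_
  have hi' : i ≤ n := Nat.lt_succ_iff.mp (Finset.mem_range.mp hi)
  have hpow : (p : ℂ) ^ (n + 1) = (p : ℂ) ^ (n - i) * (p : ℂ) ^ i * p := by
    rw [← pow_add, Nat.sub_add_cancel hi', pow_succ]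
  rw [hpow, div_pow]
  push_cast
  field_simp

theorem smul_polyFun_slash_heckeDiagMatrix (n : ℕ) {p : ℕ} (hp : p ≠ 0) {P : ℂ[X]}
    (hP : P.natDegree ≤ n) :
    (p : ℂ) ^ (n + 1) • (polyFun P ∣[-(n : ℤ)] heckeDiagMatrix p) =
      polyFun (shiftPoly n p 0 1 P) := by
  have hp' : (p : ℂ) ≠ 0 := by exact_mod_cast hp
  funext τ
  simp only [Pi.smul_apply, smul_eq_mul, slash_heckeDiagMatrix_apply _ hp, polyFun_apply,
    coe_heckeDiagMatrix_smul hp, eval_shiftPoly]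
  have hz : (p : ℂ) ^ (n + 1) * (p : ℂ) ^ (-(n : ℤ) - 1) = 1 := by
    rw [← zpow_natCast, ← zpow_add₀ hp']
    have : ((n + 1 : ℕ) : ℤ) + (-(n : ℤ) - 1) = 0 := by push_cast; ring
    rw [this, zpow_zero]
  rw [← mul_assoc, hz, one_mul, eval_eq_sum_range' (Nat.lt_succ_of_le hP)]
  refine Finset.sum_congr rfl fun i _ ↦ ?_
  simp

/-- The polynomial action attached to the coset representative `heckeRep p y`. -/
noncomputable def repPoly (n p : ℕ) (y : OnePoint (ZMod p)) (P : ℂ[X]) : ℂ[X] :=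
  y.elim (shiftPoly n p 0 1 P) (fun j ↦ shiftPoly n 1 j.val p P)

/-- Integer coefficient matrix of `repPoly`. -/
noncomputable def repCoeff (n p : ℕ) (y : OnePoint (ZMod p)) (i j : ℕ) : ℤ :=
  y.elim ((wInt n p 0 1 i).coeff j) (fun x ↦ (wInt n 1 x.val p i).coeff j)

theorem coeff_repPoly (n p : ℕ) (y : OnePoint (ZMod p)) (P : ℂ[X]) (j : ℕ) :
    (repPoly n p y P).coeff j = ∑ i ∈ Finset.range (n + 1), repCoeff n p y i j • P.coeff i := by
  induction y using OnePoint.rec with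
  | infty => simpa [repPoly, repCoeff] using coeff_shiftPoly n p 0 1 P j
  | coe x => simpa [repPoly, repCoeff] using coeff_shiftPoly n 1 x.val p P j

theorem smul_polyFun_slash_heckeRep (n : ℕ) {p : ℕ} (hp : p ≠ 0) (y : OnePoint (ZMod p))
    {P : ℂ[X]} (hP : P.natDegree ≤ n) :
    (p : ℂ) ^ (n + 1) • (polyFun P ∣[-(n : ℤ)] heckeRep p y) = polyFun (repPoly n p y P) := by
  induction y using OnePoint.rec with
  | infty => simpa [repPoly] using smul_polyFun_slash_heckeDiagMatrix n hp hP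
  | coe x => simpa [repPoly] using smul_polyFun_slash_heckeMatrix n hp x.val hP

/-! ### Cusp forms on `Γ₀(N)` are in the class of the Eichler integral -/

theorem isCuspPer_cuspForm {N : ℕ} [NeZero N] {k : ℤ}
    (f : CuspForm (CongruenceSubgroup.Gamma0 N) k) : IsCuspPer 1 (⇑f) where
  per := by
    have := SlashInvariantFormClass.periodic_comp_ofComplex f
      (CongruenceSubgroup.one_mem_strictPeriods_Gamma0 N)
    simpa using this
  hol := CuspFormClass.holo f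
  zero := by
    have := CuspFormClass.zero_at_infty_slash f (1 : SL(2, ℤ))
    simpa using this

/-! ### The abstract period-polynomial lattice and its Hecke stability -/

section lattice

variable {N n : ℕ} [NeZero N]

/-- The lattice spanned by the coefficient functionals of a family of period polynomials. -/
def perLattice (N n : ℕ)
    (per : SL(2, ℤ) → CuspForm (CongruenceSubgroup.Gamma0 N) ((n : ℤ) + 2) →ₗ[ℂ] ℂ[X]) :
    Submodule ℤ (Module.Dual ℂ (CuspForm (CongruenceSubgroup.Gamma0 N) ((n : ℤ) + 2))) :=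
  Submodule.span ℤ {l | ∃ γ ∈ CongruenceSubgroup.Gamma0 N, ∃ j, j ≤ n ∧
    l = (Polynomial.lcoeff ℂ j) ∘ₗ per γ}

variable (per : SL(2, ℤ) → CuspForm (CongruenceSubgroup.Gamma0 N) ((n : ℤ) + 2) →ₗ[ℂ] ℂ[X])

theorem per_heckeTLin
    (hper : ∀ γ ∈ CongruenceSubgroup.Gamma0 N, ∀ f,
      polyFun (per γ f) = eint 1 (n + 1) ⇑f ∣[-(n : ℤ)] γ - eint 1 (n + 1) ⇑f)
    (hdeg : ∀ γ ∈ CongruenceSubgroup.Gamma0 N, ∀ f, (per γ f).natDegree ≤ n)
    {ℓ : ℕ} [Fact ℓ.Prime] (hℓ : ℓ.Prime) (hℓN : ¬ ℓ ∣ N) (γ : SL(2, ℤ))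
    (hγ : γ ∈ CongruenceSubgroup.Gamma0 N) :
    ∃ (γ' : OnePoint (ZMod ℓ) → SL(2, ℤ)) (π : Equiv.Perm (OnePoint (ZMod ℓ))),
      (∀ x, γ' x ∈ CongruenceSubgroup.Gamma0 N) ∧
      ∀ f, per γ (CuspForm.heckeTLin ((n : ℤ) + 2) hℓ hℓN f) =
        ∑ x : OnePoint (ZMod ℓ), repPoly n ℓ (π x) (per (γ' x) f) := by
  obtain ⟨γ', hγ', hid⟩ := heckeT_slash_sub hℓN γ hγ
  refine ⟨γ', MulAction.toPerm (redMatrix ℓ γ), hγ', fun f ↦ polyFun_injective ?_⟩
  have hf := isCuspPer_cuspForm f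
  rw [hper γ hγ, CuspForm.coe_heckeTLin_apply, eint_heckeT n hℓ.ne_zero hf, SL_smul_slash,
    ← smul_sub, hid, Finset.smul_sum, polyFun_sum']
  refine Finset.sum_congr rfl fun x _ ↦ ?_
  rw [← hper (γ' x) (hγ' x)]
  exact smul_polyFun_slash_heckeRep n hℓ.ne_zero _ (hdeg _ (hγ' x) f)

theorem per_heckeULin
    (hper : ∀ γ ∈ CongruenceSubgroup.Gamma0 N, ∀ f,
      polyFun (per γ f) = eint 1 (n + 1) ⇑f ∣[-(n : ℤ)] γ - eint 1 (n + 1) ⇑f)
    (hdeg : ∀ γ ∈ CongruenceSubgroup.Gamma0 N, ∀ f, (per γ f).natDegree ≤ n)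
    {q : ℕ} [NeZero q] (hqN : q ∣ N) (γ : SL(2, ℤ))
    (hγ : γ ∈ CongruenceSubgroup.Gamma0 N) :
    ∃ (γ' : ZMod q → SL(2, ℤ)) (π : Equiv.Perm (ZMod q)),
      (∀ x, γ' x ∈ CongruenceSubgroup.Gamma0 N) ∧
      ∀ f, per γ (CuspForm.heckeULin ((n : ℤ) + 2) hqN f) =
        ∑ x : ZMod q, shiftPoly n 1 (π x).val q (per (γ' x) f) := by
  have hq0 : q ≠ 0 := NeZero.ne q
  obtain ⟨γ', π, hγ', hid⟩ := heckeU_slash_sub hqN γ hγ
  refine ⟨γ', π, hγ', fun f ↦ polyFun_injective ?_⟩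
  have hf := isCuspPer_cuspForm f
  rw [hper γ hγ, CuspForm.coe_heckeULin_apply, eint_heckeU n hq0 hf, SL_smul_slash,
    ← smul_sub, hid, Finset.smul_sum, polyFun_sum']
  refine Finset.sum_congr rfl fun x _ ↦ ?_
  rw [← hper (γ' x) (hγ' x)]
  exact smul_polyFun_slash_heckeMatrix n hq0 _ (hdeg _ (hγ' x) f)

/-- **Hecke stability (`T_ℓ`)** of the period-polynomial lattice. -/
theorem perLattice_comp_heckeTLin
    (hper : ∀ γ ∈ CongruenceSubgroup.Gamma0 N, ∀ f,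
      polyFun (per γ f) = eint 1 (n + 1) ⇑f ∣[-(n : ℤ)] γ - eint 1 (n + 1) ⇑f)
    (hdeg : ∀ γ ∈ CongruenceSubgroup.Gamma0 N, ∀ f, (per γ f).natDegree ≤ n)
    {ℓ : ℕ} (hℓ : ℓ.Prime) (hℓN : ¬ ℓ ∣ N) :
    ∀ l ∈ perLattice N n per,
      l ∘ₗ CuspForm.heckeTLin ((n : ℤ) + 2) hℓ hℓN ∈ perLattice N n per := by
  have : Fact ℓ.Prime := ⟨hℓ⟩
  intro l hl
  induction hl using Submodule.span_induction with
  | mem l hl =>
    obtain ⟨γ, hγ, j, -, rfl⟩ := hl
    obtain ⟨γ', π, hγ', hid⟩ := per_heckeTLin per hper hdeg hℓ hℓN γ hγ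
    have key : (Polynomial.lcoeff ℂ j ∘ₗ per γ) ∘ₗ CuspForm.heckeTLin ((n : ℤ) + 2) hℓ hℓN =
        ∑ x : OnePoint (ZMod ℓ), ∑ i ∈ Finset.range (n + 1),
          repCoeff n ℓ (π x) i j • (Polynomial.lcoeff ℂ i ∘ₗ per (γ' x)) := by
      refine LinearMap.ext fun f ↦ ?_
      simp only [LinearMap.comp_apply, lcoeff_apply, hid f, finsetSum_coeff, coeff_repPoly,
        LinearMap.sum_apply, LinearMap.smul_apply]
    rw [key]
    refine Submodule.sum_mem _ fun x _ ↦ Submodule.sum_mem _ fun i hi ↦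
      Submodule.smul_mem _ _ (Submodule.subset_span
        ⟨γ' x, hγ' x, i, Nat.lt_succ_iff.mp (Finset.mem_range.mp hi), rfl⟩)
  | zero => simp
  | add l₁ l₂ _ _ h₁ h₂ => rw [LinearMap.add_comp]; exact add_mem h₁ h₂
  | smul c l _ h => rw [LinearMap.smul_comp]; exact Submodule.smul_mem _ c h

/-- **Hecke stability (`U_q`)** of the period-polynomial lattice. -/
theorem perLattice_comp_heckeULin
    (hper : ∀ γ ∈ CongruenceSubgroup.Gamma0 N, ∀ f,
      polyFun (per γ f) = eint 1 (n + 1) ⇑f ∣[-(n : ℤ)] γ - eint 1 (n + 1) ⇑f)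
    (hdeg : ∀ γ ∈ CongruenceSubgroup.Gamma0 N, ∀ f, (per γ f).natDegree ≤ n)
    {q : ℕ} (hqN : q ∣ N) (hq : q.Prime) :
    ∀ l ∈ perLattice N n per,
      l ∘ₗ CuspForm.heckeULin ((n : ℤ) + 2) hqN ∈ perLattice N n per := by
  have : NeZero q := ⟨hq.ne_zero⟩
  intro l hl
  induction hl using Submodule.span_induction with
  | mem l hl =>
    obtain ⟨γ, hγ, j, -, rfl⟩ := hl
    obtain ⟨γ', π, hγ', hid⟩ := per_heckeULin per hper hdeg hqN γ hγ
    have key : (Polynomial.lcoeff ℂ j ∘ₗ per γ) ∘ₗ CuspForm.heckeULin ((n : ℤ) + 2) hqN =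
        ∑ x : ZMod q, ∑ i ∈ Finset.range (n + 1),
          (wInt n 1 (π x).val q i).coeff j • (Polynomial.lcoeff ℂ i ∘ₗ per (γ' x)) := by
      refine LinearMap.ext fun f ↦ ?_
      simp only [LinearMap.comp_apply, lcoeff_apply, hid f, finsetSum_coeff, coeff_shiftPoly,
        LinearMap.sum_apply, LinearMap.smul_apply]
    rw [key]
    refine Submodule.sum_mem _ fun x _ ↦ Submodule.sum_mem _ fun i hi ↦
      Submodule.smul_mem _ _ (Submodule.subset_span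
        ⟨γ' x, hγ' x, i, Nat.lt_succ_iff.mp (Finset.mem_range.mp hi), rfl⟩)
  | zero => simp
  | add l₁ l₂ _ _ h₁ h₂ => rw [LinearMap.add_comp]; exact add_mem h₁ h₂
  | smul c l _ h => rw [LinearMap.smul_comp]; exact Submodule.smul_mem _ c h

end lattice

end Fermat.Agent.S22.H62
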